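/-
S37lib / ConjNorm / FrobSeries  (helper4)

(C1), auxiliary: in characteristic `p` the `p`-th power of a Laurent series is
`f(q)^p = (Fr f)(q^p)`, `Fr` the coefficientwise Frobenius:
`x ^ p = qExpand R p (coeffMap (frobenius R p) x)`.
-/
import Mathlib
import Fermat.Prelude.Def_ModularCurve_X0ModL
import Fermat.Prelude.Thm_ModularCurve_coeffMap_qExpand

set_option autoImplicit false
set_option linter.unusedSectionVars false

noncomputable section

namespace Fermat.Agent.S37lib.ConjNorm

open ModularCurve HahnSeries

variable {R : Type*} [CommRing R]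

/-- all coefficients of index `< B` vanish -/
def VanishBelow (B : ℤ) (x : LaurentSeries R) : Prop := ∀ i : ℤ, i < B → x.coeff i = 0

theorem VanishBelow.mul {B B' : ℤ} {x y : LaurentSeries R} (hx : VanishBelow B x)
    (hy : VanishBelow B' y) : VanishBelow (B + B') (x * y) := by
  intro i hi
  rw [HahnSeries.coeff_mul]
  apply Finset.sum_eq_zero
  intro ij hij
  have hsum : ij.1 + ij.2 = i := (Finset.mem_addAntidiagonal.mp hij).2.2
  by_cases h1 : ij.1 < B
  · rw [hx _ h1, zero_mul]
  · have h2 : ij.2 < B' := by omega
    rw [hy _ h2, mul_zero]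

theorem vanishBelow_one : VanishBelow 0 (1 : LaurentSeries R) := by
  intro i hi
  rw [HahnSeries.coeff_one, if_neg (by omega)]

theorem VanishBelow.pow {B : ℤ} {x : LaurentSeries R} (hx : VanishBelow B x) (n : ℕ) :
    VanishBelow (n * B) (x ^ n) := by
  induction n with
  | zero =>
    rw [pow_zero, Nat.cast_zero, zero_mul]
    exact vanishBelow_one
  | succ n ih =>
    rw [pow_succ]
    have h1 := ih.mul hx
    have h2 : ((n + 1 : ℕ) : ℤ) * B = n * B + B := by push_cast; ring
    rw [h2]
    exact h1

theorem vanishBelow_order (x : LaurentSeries R) : VanishBelow x.order x := fun _ hi =>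
  HahnSeries.coeff_eq_zero_of_lt_order hi

section Frob

variable (p : ℕ) [hp : Fact p.Prime] [NeZero p] [CharP R p]

theorem charP_laurentSeries : CharP (LaurentSeries R) p :=
  charP_of_injective_ringHom (f := (HahnSeries.C : R →+* LaurentSeries R))
    HahnSeries.C_injective p

theorem vanishBelow_qExpand_frob {B : ℤ} {x : LaurentSeries R} (hx : VanishBelow B x) :
    VanishBelow (p * B) (qExpand R p (coeffMap (frobenius R p) x)) := by
  intro i hi
  by_cases hdvd : (p : ℤ) ∣ i
  · obtain ⟨m, rfl⟩ := hdvd
    have hp0 : (0 : ℤ) < p := by exact_mod_cast hp.out.pos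
    have hm : m < B := lt_of_mul_lt_mul_left hi hp0.le
    rw [qExpand_coeff_mul, coeffMap_coeff, hx m hm, map_zero]
  · exact qExpand_coeff_of_not_dvd p _ hdvd

/-- the two sides agree below `p (B + m)` for a series vanishing below `B` -/
theorem coeff_pow_char_aux (m : ℕ) : ∀ (B : ℤ) (x : LaurentSeries R), VanishBelow B x →
    ∀ n : ℤ, n < p * (B + m) →
      (x ^ p).coeff n = (qExpand R p (coeffMap (frobenius R p) x)).coeff n := by
  haveI := charP_laurentSeries (R := R) p
  induction m with
  | zero =>
    intro B x hx n hn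
    rw [Nat.cast_zero, add_zero] at hn
    rw [hx.pow p n hn, vanishBelow_qExpand_frob p hx n hn]
  | succ m ih =>
    intro B x hx n hn
    set a := x.coeff B with ha
    set x' := x - HahnSeries.single B a with hx'
    have hx'v : VanishBelow (B + 1) x' := by
      intro i hi
      rw [hx', HahnSeries.coeff_sub]
      rcases eq_or_ne i B with rfl | hne
      · rw [HahnSeries.coeff_single_same, ha, sub_self]
      · rw [HahnSeries.coeff_single_of_ne hne, sub_zero]
        exact hx i (by omega)
    have hxe : x = HahnSeries.single B a + x' := by rw [hx']; ring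
    have hn' : n < p * (B + 1 + m) := by
      have : (B + 1 + (m : ℤ)) = B + ((m + 1 : ℕ) : ℤ) := by push_cast; ring
      rw [this]; exact hn
    have h1 := ih (B + 1) x' hx'v n hn'
    have h2 : x ^ p = HahnSeries.single (p • B) (a ^ p) + x' ^ p := by
      rw [hxe, add_pow_char, HahnSeries.single_pow]
    have h3 : qExpand R p (coeffMap (frobenius R p) x) =
        HahnSeries.single (p • B) (a ^ p) + qExpand R p (coeffMap (frobenius R p) x') := by
      rw [hxe, map_add, map_add, coeffMap_single, qExpand_single, frobenius_def]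
      congr 2
    rw [h2, h3, HahnSeries.coeff_add, HahnSeries.coeff_add, h1]

/-- **`f(q)^p = (Fr f)(q^p)`** in characteristic `p` -/
theorem pow_char_eq_qExpand (x : LaurentSeries R) :
    x ^ p = qExpand R p (coeffMap (frobenius R p) x) := by
  ext n
  have hp0 : (1 : ℤ) ≤ p := by exact_mod_cast hp.out.one_le
  set m : ℕ := (n - p * x.order).toNat + 1 with hm
  refine coeff_pow_char_aux p m x.order x (vanishBelow_order x) n ?_
  have h1 : n - p * x.order ≤ ((n - p * x.order).toNat : ℤ) := Int.self_le_toNat _
  have h2 : (m : ℤ) = ((n - p * x.order).toNat : ℤ) + 1 := by rw [hm]; push_cast; ring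
  have h3 : (m : ℤ) ≤ p * m := by
    have : (0 : ℤ) ≤ m := Int.natCast_nonneg m
    nlinarith
  have h4 : (p : ℤ) * (x.order + m) = p * x.order + p * m := by ring
  rw [h4]
  omega

end Frob

end Fermat.Agent.S37lib.ConjNorm
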