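/-
S37lib / ConjNorm / Rel  (helper4)

(C1), part 1: Tate embeddings of `F_M = k(j(q^d) : d ∣ M)`, `M = N ℓ`, `ℓ ∤ N`, which are the
standard embedding `q ↦ u^(M*M)` on the subfield `F_N`.  Their configuration is determined by the
vertex `w` at `ℓ` (an `ℓ`-neighbour of `(1, M*M)`): the vertex at `d ℓ`, `d ∣ N`, is
`(w.1^d, d * w.2)`, and on `β (F_N)`, `β = (q ↦ q^ℓ)`, the embedding is the substitution
`q ↦ w.1 u^(w.2)`.
-/
import Fermat.Agent.S18lib.Gink.CuspTate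
import Fermat.Agent.S18lib.Gink.CuspConf

set_option autoImplicit false
set_option linter.unusedSectionVars false

noncomputable section

namespace Fermat.Agent.S37lib.ConjNorm

open ModularCurve Fermat.Agent.S28lib Fermat.Agent.S18lib.Gink Polynomial

variable {k : Type*} [Field k]

/-! ### ring homomorphisms out of `k(j(q^d) : d ∣ N)` -/

/-- two ring homomorphisms from `k(j(q^d) : d ∣ N)` to a field which agree on the constants and on
the generators `j(q^d)` are equal -/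
theorem ringHom_ext_fullC {N : ℕ} [NeZero N] {Ω : Type*} [Field Ω]
    {f g : ↥(modularFunctionFieldFullC k N) →+* Ω}
    (hc : ∀ c : k, f (algebraMap k ↥(modularFunctionFieldFullC k N) c) =
      g (algebraMap k ↥(modularFunctionFieldFullC k N) c))
    (hj : ∀ (d : ℕ) (hd : d ∣ N), f (jF N d hd) = g (jF N d hd)) : f = g := by
  apply RingHom.ext
  rintro ⟨y, hy⟩
  have hy' : y ∈ IntermediateField.adjoin k (divisorExpansionsC k N) := hy
  revert hy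
  induction hy' using IntermediateField.adjoin_induction with
  | mem z hz =>
    intro hy
    rw [divisorExpansionsC_eq] at hz
    obtain ⟨d, hd, rfl⟩ := hz
    exact hj d hd
  | algebraMap c =>
    intro hy
    have h1 : (⟨algebraMap k (LaurentSeries k) c, hy⟩ : ↥(modularFunctionFieldFullC k N)) =
        algebraMap k ↥(modularFunctionFieldFullC k N) c := Subtype.ext rfl
    rw [h1, hc]
  | add a b ha hb iha ihb =>
    intro hy
    have h1 : (⟨a + b, hy⟩ : ↥(modularFunctionFieldFullC k N)) = ⟨a, ha⟩ + ⟨b, hb⟩ := rfl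
    rw [h1, map_add, map_add, iha ha, ihb hb]
  | inv a ha iha =>
    intro hy
    have h1 : (⟨a⁻¹, hy⟩ : ↥(modularFunctionFieldFullC k N)) =
        (⟨a, ha⟩ : ↥(modularFunctionFieldFullC k N))⁻¹ := rfl
    rw [h1, map_inv₀, map_inv₀, iha ha]
  | mul a b ha hb iha ihb =>
    intro hy
    have h1 : (⟨a * b, hy⟩ : ↥(modularFunctionFieldFullC k N)) = ⟨a, ha⟩ * ⟨b, hb⟩ := rfl
    rw [h1, map_mul, map_mul, iha ha, ihb hb]

/-! ### the substitution `q ↦ ζ u^e` of a vertex -/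

/-- the substitution `q ↦ ζ u^e` attached to a vertex `(ζ, e)` (junk: the identity for `e = 0`) -/
def substV (v : kˣ × ℕ) : LaurentSeries k →+* LaurentSeries k :=
  if h : v.2 = 0 then RingHom.id _ else (@qExpand k _ v.2 ⟨h⟩).comp (twist v.1)

theorem substV_of_ne {v : kˣ × ℕ} (h : v.2 ≠ 0) :
    substV v = (@qExpand k _ v.2 ⟨h⟩).comp (twist v.1) := dif_neg h

theorem substV_mk (ζ : kˣ) (e : ℕ) [he : NeZero e] (x : LaurentSeries k) :
    substV (ζ, e) x = qExpand k e (twist ζ x) := by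
  rw [substV_of_ne (show ((ζ, e) : kˣ × ℕ).2 ≠ 0 from he.out)]
  rfl

theorem substV_C {v : kˣ × ℕ} (c : k) : substV v (HahnSeries.C c) = HahnSeries.C c := by
  by_cases h : v.2 = 0
  · rw [substV, dif_pos h]; rfl
  · rw [substV_of_ne h, RingHom.comp_apply, twist_C]
    exact @qExpand_C k _ v.2 ⟨h⟩ c

/-- `j(q^d) ↦ j(ζ^d u^(d e))` -/
theorem substV_jAt {v : kˣ × ℕ} (hv : v.2 ≠ 0) {d : ℕ} (hd : d ≠ 0) :
    substV v (jAt k d) = jV (v.1 ^ d, d * v.2) := by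
  have : NeZero v.2 := ⟨hv⟩
  have : NeZero d := ⟨hd⟩
  have : NeZero (d * v.2) := ⟨Nat.mul_ne_zero hd hv⟩
  have : NeZero (v.2 * d) := ⟨Nat.mul_ne_zero hv hd⟩
  rw [substV_of_ne hv, RingHom.comp_apply, jAt_of_neZero, twist_qExpand, qExpand_qExpand, jV_mk,
    jS]
  exact qExpand_congr (mul_comm _ _) _

/-! ### configurations which are standard on the divisors of `N` -/

/-- **Forced vertices.** A configuration on the divisors of `N ℓ`, `ℓ ∤ N`, which is standard on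
the divisors of `N`, is determined by its vertex `w` at `ℓ`: the vertex at `d ℓ` is
`(w.1^d, d * w.2)`. -/
theorem IsConf.vtx_mul_prime {e₀ N ℓ : ℕ} {c : ℕ → kˣ × ℕ} (hc : IsConf e₀ (N * ℓ) c)
    (he₀ : e₀ ≠ 0) (hN : N ≠ 0) (hℓ : ℓ.Prime) (hℓN : ¬ ℓ ∣ N)
    (h0 : ∀ d : ℕ, d ∣ N → c d = ((1 : kˣ), e₀ * d)) :
    ∀ d : ℕ, d ∣ N → c (d * ℓ) = ((c ℓ).1 ^ d, d * (c ℓ).2) := by
  have hM : N * ℓ ≠ 0 := Nat.mul_ne_zero hN hℓ.ne_zero
  -- the vertex at `ℓ` is a neighbour of the base vertex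
  have hw : Adj ℓ ((1 : kˣ), e₀) (c ℓ) := by
    have h1 := hc.adj 1 ℓ hℓ (by rw [one_mul]; exact Dvd.intro_left N rfl)
    rwa [hc.base, one_mul] at h1
  intro d
  induction d using Nat.strong_induction_on with
  | _ d ih =>
    intro hd
    have hd0 : d ≠ 0 := ne_zero_of_dvd_ne_zero hN hd
    by_cases h1 : d = 1
    · subst h1
      rw [one_mul, pow_one, one_mul]
    · obtain ⟨q, hq, hqd⟩ := Nat.exists_prime_and_dvd h1
      obtain ⟨d₁, rfl⟩ := hqd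
      have hd₁0 : d₁ ≠ 0 := fun h => hd0 (by rw [h, mul_zero])
      have hlt : d₁ < q * d₁ := by
        have := hq.two_le
        have : 0 < d₁ := Nat.pos_of_ne_zero hd₁0
        nlinarith
      have hne : ℓ ≠ q := by
        rintro rfl
        exact hℓN ((Dvd.intro _ rfl).trans hd)
      have hd₁ : d₁ ∣ N := (Dvd.intro_left q rfl).trans hd
      have hw1 : c (d₁ * ℓ) = ((c ℓ).1 ^ d₁, d₁ * (c ℓ).2) := ih d₁ hlt hd₁
      have hw2 : c (q * d₁) = ((1 : kˣ), e₀ * (q * d₁)) := h0 _ hd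
      have hdvd : q * d₁ * ℓ ∣ N * ℓ := Nat.mul_dvd_mul_right hd ℓ
      have hdvd1 : d₁ * ℓ ∣ N * ℓ := Nat.mul_dvd_mul_right hd₁ ℓ
      have hdvd2 : q * d₁ ∣ N * ℓ := hd.trans (Dvd.intro _ rfl)
      have e1 : d₁ * ℓ * q = q * d₁ * ℓ := by ring
      have ha1 : Adj q (c (d₁ * ℓ)) (c (q * d₁ * ℓ)) := by
        have := hc.adj (d₁ * ℓ) q hq (e1 ▸ hdvd)
        rwa [e1] at this
      have ha2 : Adj ℓ (c (q * d₁)) (c (q * d₁ * ℓ)) := hc.adj (q * d₁) ℓ hℓ hdvd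
      have hn1 := hc.snd_ne_zero he₀ _ (ne_zero_of_dvd_ne_zero hM hdvd1) hdvd1
      have hn2 := hc.snd_ne_zero he₀ _ (ne_zero_of_dvd_ne_zero hM hdvd2) hdvd2
      -- the candidate
      have ha1' : Adj q (c (d₁ * ℓ)) ((c ℓ).1 ^ (q * d₁), q * d₁ * (c ℓ).2) := by
        rw [hw1]
        refine Or.inl ⟨?_, ?_⟩
        · show (c ℓ).1 ^ (q * d₁) = ((c ℓ).1 ^ d₁) ^ q
          rw [← pow_mul, mul_comm]
        · show q * d₁ * (c ℓ).2 = q * (d₁ * (c ℓ).2)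
          ring
      have ha2' : Adj ℓ (c (q * d₁)) ((c ℓ).1 ^ (q * d₁), q * d₁ * (c ℓ).2) := by
        rw [hw2]
        rcases hw with hu | hdn
        · refine Or.inl ⟨?_, ?_⟩
          · show (c ℓ).1 ^ (q * d₁) = (1 : kˣ) ^ ℓ
            rw [hu.1]
            show ((1 : kˣ) ^ ℓ) ^ (q * d₁) = (1 : kˣ) ^ ℓ
            rw [one_pow, one_pow]
          · show q * d₁ * (c ℓ).2 = ℓ * (e₀ * (q * d₁))
            rw [hu.2]
            show q * d₁ * (ℓ * e₀) = ℓ * (e₀ * (q * d₁))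
            ring
        · refine Or.inr ⟨?_, ?_⟩
          · show ((c ℓ).1 ^ (q * d₁)) ^ ℓ = 1
            have h2 : (c ℓ).1 ^ ℓ = 1 := hdn.1
            rw [← pow_mul, mul_comm, pow_mul, h2, one_pow]
          · show ℓ * (q * d₁ * (c ℓ).2) = e₀ * (q * d₁)
            have h2 : ℓ * (c ℓ).2 = e₀ := hdn.2
            rw [← h2]
            ring
      exact common_neighbour_unique hℓ hq hne hn1 hn2 ha1 ha2 ha1' ha2'

/-- the divisors of `N ℓ`, `ℓ ∤ N` prime, are the `d` and the `d ℓ` with `d ∣ N` -/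
theorem dvd_or_of_dvd_mul_prime {N ℓ δ : ℕ} (hℓ : ℓ.Prime) (hδ : δ ∣ N * ℓ) :
    δ ∣ N ∨ ∃ d : ℕ, d ∣ N ∧ δ = d * ℓ := by
  by_cases h : ℓ ∣ δ
  · obtain ⟨d, rfl⟩ := h
    refine Or.inr ⟨d, ?_, mul_comm _ _⟩
    rw [mul_comm ℓ d] at hδ
    exact Nat.dvd_of_mul_dvd_mul_right hℓ.pos hδ
  · exact Or.inl (((Nat.Prime.coprime_iff_not_dvd hℓ).mpr h).symm.dvd_of_dvd_mul_right hδ)

/-! ### Tate embeddings relative to the level `N` -/

section Tate

variable (N ℓ : ℕ) [NeZero N] [NeZero ℓ]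

/-- the second degeneracy map `β : F_N → F_(N ℓ)`, `f(q) ↦ f(q^ℓ)` -/
def betaC : ↥(modularFunctionFieldFullC k N) →+* ↥(modularFunctionFieldFullC k (N * ℓ)) where
  toFun x := ⟨qExpand k ℓ (x : LaurentSeries k), full_degeneracyC_map_le k N ℓ ⟨x, x.2, rfl⟩⟩
  map_one' := Subtype.ext (map_one (qExpand k ℓ))
  map_mul' _ _ := Subtype.ext (map_mul (qExpand k ℓ) _ _)
  map_zero' := Subtype.ext (map_zero (qExpand k ℓ))
  map_add' _ _ := Subtype.ext (map_add (qExpand k ℓ) _ _)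

@[simp] theorem coe_betaC (x : ↥(modularFunctionFieldFullC k N)) :
    ((betaC N ℓ x : ↥(modularFunctionFieldFullC k (N * ℓ))) : LaurentSeries k) =
      qExpand k ℓ (x : LaurentSeries k) := rfl

theorem betaC_const (c : k) :
    betaC N ℓ (algebraMap k ↥(modularFunctionFieldFullC k N) c) =
      algebraMap k ↥(modularFunctionFieldFullC k (N * ℓ)) c := by
  apply Subtype.ext
  show qExpand k ℓ (algebraMap k (LaurentSeries k) c) = algebraMap k (LaurentSeries k) c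
  rw [Kummer.algebraMap_laurent_eq_C, qExpand_C]

theorem betaC_jF (d : ℕ) (hd : d ∣ N) :
    betaC (k := k) N ℓ (jF N d hd) = jF (N * ℓ) (d * ℓ) (Nat.mul_dvd_mul_right hd ℓ) := by
  have hd0 : d ≠ 0 := ne_zero_of_dvd_ne_zero (NeZero.ne N) hd
  have : NeZero d := ⟨hd0⟩
  have : NeZero (ℓ * d) := ⟨Nat.mul_ne_zero (NeZero.ne ℓ) hd0⟩
  apply Subtype.ext
  show qExpand k ℓ (jAt k d) = jAt k (d * ℓ)
  rw [mul_comm d ℓ, jAt_of_neZero, jAt_of_neZero, qExpand_qExpand]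

variable {N ℓ}
variable [IsAlgClosed k]
variable (hΦ : ∀ (p : ℕ) [NeZero p], p.Prime → p ∣ N * ℓ → ModPolyData k p)
variable (T : TateEmb (N * ℓ) (RingHom.id (LaurentSeries k)))

/-- `σ` is the standard embedding `q ↦ u^(M*M)` on the generators of the subfield of level `N` -/
def IsRel : Prop :=
  ∀ (d : ℕ) (hd : d ∣ N), T.σ (jF (N * ℓ) d (hd.trans (Dvd.intro _ rfl))) =
    jAt k (N * ℓ * (N * ℓ) * d)

variable {T}

theorem IsRel.vtx_eq (hT : IsRel T) {d : ℕ} (hd : d ∣ N) :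
    T.vtx hΦ d = ((1 : kˣ), N * ℓ * (N * ℓ) * d) := by
  have hd0 : d ≠ 0 := ne_zero_of_dvd_ne_zero (NeZero.ne N) hd
  have hM0 : N * ℓ ≠ 0 := NeZero.ne (N * ℓ)
  have he : N * ℓ * (N * ℓ) * d ≠ 0 := Nat.mul_ne_zero (Nat.mul_ne_zero hM0 hM0) hd0
  refine T.vtx_unique hΦ (hd.trans (Dvd.intro _ rfl)) (v := ((1 : kˣ), N * ℓ * (N * ℓ) * d)) he ?_
  rw [hT d hd, jV_one _ he]

/-- the vertex at `ℓ` is an `ℓ`-neighbour of the base vertex -/
theorem adj_vtx_prime (hℓ : ℓ.Prime) :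
    Adj ℓ ((1 : kˣ), N * ℓ * (N * ℓ)) (T.vtx hΦ ℓ) := by
  have hc := T.isConf hΦ
  have h1 := hc.adj 1 ℓ hℓ (by rw [one_mul]; exact Dvd.intro_left N rfl)
  rwa [hc.base, one_mul] at h1

/-- **Forced vertices.** -/
theorem IsRel.vtx_mul (hT : IsRel T) (hℓ : ℓ.Prime) (hℓN : ¬ ℓ ∣ N) {d : ℕ} (hd : d ∣ N) :
    T.vtx hΦ (d * ℓ) = ((T.vtx hΦ ℓ).1 ^ d, d * (T.vtx hΦ ℓ).2) := by
  have hM0 : N * ℓ ≠ 0 := NeZero.ne (N * ℓ)
  exact IsConf.vtx_mul_prime (T.isConf hΦ) (Nat.mul_ne_zero hM0 hM0) (NeZero.ne N) hℓ hℓN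
    (fun d hd => hT.vtx_eq hΦ hd) d hd

/-- **On `β (F_N)` the embedding is the substitution `q ↦ w.1 u^(w.2)`**, `w` the vertex at `ℓ`. -/
theorem IsRel.σ_betaC (hT : IsRel T) (hℓ : ℓ.Prime) (hℓN : ¬ ℓ ∣ N)
    (x : ↥(modularFunctionFieldFullC k N)) :
    T.σ (betaC N ℓ x) = substV (T.vtx hΦ ℓ) (x : LaurentSeries k) := by
  have hw0 : (T.vtx hΦ ℓ).2 ≠ 0 := T.vtx_snd_ne_zero hΦ (Dvd.intro_left N rfl)
  have key : T.σ.comp (betaC N ℓ) = (substV (T.vtx hΦ ℓ)).comp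
      (algebraMap ↥(modularFunctionFieldFullC k N) (LaurentSeries k)) := by
    apply ringHom_ext_fullC
    · intro c
      rw [RingHom.comp_apply, RingHom.comp_apply, betaC_const, T.map_const]
      show HahnSeries.C c = substV (T.vtx hΦ ℓ) (algebraMap k (LaurentSeries k) c)
      rw [Kummer.algebraMap_laurent_eq_C, substV_C]
    · intro d hd
      have hd0 : d ≠ 0 := ne_zero_of_dvd_ne_zero (NeZero.ne N) hd
      rw [RingHom.comp_apply, RingHom.comp_apply, betaC_jF, T.σ_jF hΦ, hT.vtx_mul hΦ hℓ hℓN hd]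
      show _ = substV (T.vtx hΦ ℓ) (jAt k d)
      rw [substV_jAt hw0 hd0]
  exact congrArg (fun f => f x) key

/-- a relative Tate embedding is determined by its vertex at `ℓ` -/
theorem IsRel.eq_of_vtx_eq {T' : TateEmb (N * ℓ) (RingHom.id (LaurentSeries k))}
    (hT : IsRel T) (hT' : IsRel T') (hℓ : ℓ.Prime) (hℓN : ¬ ℓ ∣ N)
    (h : T.vtx hΦ ℓ = T'.vtx hΦ ℓ) : T = T' := by
  apply TateEmb.eq_of_vtx_eq hΦ
  intro δ hδ
  rcases dvd_or_of_dvd_mul_prime hℓ hδ with hd | ⟨d, hd, rfl⟩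
  · rw [hT.vtx_eq hΦ hd, hT'.vtx_eq hΦ hd]
  · rw [hT.vtx_mul hΦ hℓ hℓN hd, hT'.vtx_mul hΦ hℓ hℓN hd, h]

end Tate

end Fermat.Agent.S37lib.ConjNorm
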