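/-
S37lib / ConjNorm / Norm  (helper4)

(C1), part 2: **the norm formula**.  For `M = N ℓ`, `ℓ ∤ N` prime, `F_N ⊆ F_M` of degree `ℓ + 1` and
separable, `β : F_N → F_M`, `f(q) ↦ f(q^ℓ)`:

  `N_{F_M / F_N} (β f) (u^(M*M)) = f(u^(ℓ M M)) · ∏_{i < ℓ} f(ζ^i u^(N N ℓ))`,

`ζ` a primitive `ℓ`-th root of unity.  (The `ℓ + 1` embeddings of `F_M` over `F_N` into an algebraic
closure of `k((u))` are Tate embeddings, they are determined by their vertex at `ℓ`, which is one of
the `ℓ + 1` neighbours of the base vertex, and on `β (F_N)` they are the substitutions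
`q ↦ w.1 u^(w.2)`.)
-/
import Mathlib
import Fermat.Agent.S37lib.ConjNorm.Rel
import Fermat.Agent.S18lib.Gink.CuspGlue

set_option autoImplicit false
set_option linter.unusedSectionVars false

noncomputable section

namespace Fermat.Agent.S37lib.ConjNorm

open ModularCurve Fermat.Agent.S28lib Fermat.Agent.S18lib.Gink Polynomial

variable {k : Type*} [Field k] [IsAlgClosed k] {N ℓ : ℕ} [NeZero N] [NeZero ℓ]

/-- the `ℓ + 1` neighbours of the base vertex `(1, M*M)`, `M = N ℓ` -/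
def nbrs (N ℓ : ℕ) (ζ : kˣ) : Finset (kˣ × ℕ) :=
  open Classical in
  insert ((1 : kˣ), ℓ * (N * ℓ * (N * ℓ))) ((Finset.range ℓ).image fun i => (ζ ^ i, N * N * ℓ))

theorem card_nbrs_le (N ℓ : ℕ) (ζ : kˣ) : (nbrs N ℓ ζ).card ≤ ℓ + 1 := by
  classical
  rw [nbrs]
  refine (Finset.card_insert_le _ _).trans (Nat.succ_le_succ ?_)
  exact Finset.card_image_le.trans (le_of_eq (Finset.card_range ℓ))

theorem mem_nbrs_of_adj {ζ : kˣ} (hζ : IsPrimitiveRoot ζ ℓ) {w : kˣ × ℕ}
    (hw : Adj ℓ ((1 : kˣ), N * ℓ * (N * ℓ)) w) : w ∈ nbrs N ℓ ζ := by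
  classical
  have hℓ0 : ℓ ≠ 0 := NeZero.ne ℓ
  rw [nbrs]
  rcases hw with hu | hd
  · refine Finset.mem_insert.mpr (Or.inl (Prod.ext ?_ ?_))
    · show w.1 = 1
      rw [hu.1]; exact one_pow ℓ
    · exact hu.2
  · refine Finset.mem_insert.mpr (Or.inr (Finset.mem_image.mpr ?_))
    have h1 : w.1 ^ ℓ = 1 := hd.1
    have h2 : ℓ * w.2 = N * ℓ * (N * ℓ) := hd.2
    obtain ⟨i, hi, hi'⟩ := hζ.eq_pow_of_mem_rootsOfUnity ((mem_rootsOfUnity ℓ _).mpr h1)
    refine ⟨i, Finset.mem_range.mpr hi, Prod.ext hi' ?_⟩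
    show N * N * ℓ = w.2
    have h3 : ℓ * w.2 = ℓ * (N * N * ℓ) := by rw [h2]; ring
    exact (Nat.eq_of_mul_eq_mul_left (Nat.pos_of_ne_zero hℓ0) h3).symm

theorem prod_nbrs (hℓ : ℓ.Prime) {ζ : kˣ} (hζ : IsPrimitiveRoot ζ ℓ) {Ω : Type*} [CommMonoid Ω]
    (G : kˣ × ℕ → Ω) :
    ∏ w ∈ nbrs N ℓ ζ, G w =
      G ((1 : kˣ), ℓ * (N * ℓ * (N * ℓ))) * ∏ i ∈ Finset.range ℓ, G (ζ ^ i, N * N * ℓ) := by
  classical
  have hℓ0 : ℓ ≠ 0 := NeZero.ne ℓ
  have hN0 : N ≠ 0 := NeZero.ne N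
  rw [nbrs, Finset.prod_insert, Finset.prod_image]
  · intro a ha b hb hab
    have h1 : ζ ^ a = ζ ^ b := congrArg Prod.fst hab
    exact hζ.pow_inj (Finset.mem_range.mp ha) (Finset.mem_range.mp hb) h1
  · intro h
    obtain ⟨i, -, hi⟩ := Finset.mem_image.mp h
    have h1 : N * N * ℓ = ℓ * (N * ℓ * (N * ℓ)) := congrArg Prod.snd hi
    have h2 : (N * N * ℓ) * (ℓ * ℓ) = (N * N * ℓ) * 1 := by
      rw [mul_one]
      conv_rhs => rw [h1]
      ring
    have h3 : 0 < N * N * ℓ := Nat.pos_of_ne_zero (Nat.mul_ne_zero (Nat.mul_ne_zero hN0 hN0) hℓ0)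
    have h4 : ℓ * ℓ = 1 := Nat.eq_of_mul_eq_mul_left h3 h2
    have h5 := hℓ.two_le
    nlinarith

section Main


variable (hΦ : ∀ (p : ℕ) [NeZero p], p.Prime → p ∣ N * ℓ → ModPolyData k p)
variable [Algebra ↥(modularFunctionFieldFullC k N) ↥(modularFunctionFieldFullC k (N * ℓ))] [FiniteDimensional ↥(modularFunctionFieldFullC k N) ↥(modularFunctionFieldFullC k (N * ℓ))] [Algebra.IsSeparable ↥(modularFunctionFieldFullC k N) ↥(modularFunctionFieldFullC k (N * ℓ))]
  (halg : ∀ x : ↥(modularFunctionFieldFullC k N), ((algebraMap ↥(modularFunctionFieldFullC k N) ↥(modularFunctionFieldFullC k (N * ℓ)) x : ↥(modularFunctionFieldFullC k (N * ℓ))) : LaurentSeries k) = (x : LaurentSeries k))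
  (hdeg : Module.finrank ↥(modularFunctionFieldFullC k N) ↥(modularFunctionFieldFullC k (N * ℓ)) = ℓ + 1)

include hΦ halg hdeg in
/-- **The norm formula.** -/
theorem qExpand_norm_betaC (hℓ : ℓ.Prime) (hℓN : ¬ ℓ ∣ N) {ζ : kˣ} (hζ : IsPrimitiveRoot ζ ℓ)
    (f : ↥(modularFunctionFieldFullC k N)) :
    qExpand k (N * ℓ * (N * ℓ)) ((Algebra.norm ↥(modularFunctionFieldFullC k N) (betaC N ℓ f) : ↥(modularFunctionFieldFullC k N)) : LaurentSeries k) =
      qExpand k (ℓ * (N * ℓ * (N * ℓ))) (f : LaurentSeries k) *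
        ∏ i ∈ Finset.range ℓ, qExpand k (N * N * ℓ) (twist (ζ ^ i) (f : LaurentSeries k)) := by
  classical
  let E := AlgebraicClosure (LaurentSeries k)
  let ι : LaurentSeries k →+* E := algebraMap (LaurentSeries k) E
  let base : ↥(modularFunctionFieldFullC k N) →+* LaurentSeries k :=
    (qExpand k (N * ℓ * (N * ℓ))).comp (algebraMap ↥(modularFunctionFieldFullC k N) (LaurentSeries k))
  letI algE : Algebra ↥(modularFunctionFieldFullC k N) E := (ι.comp base).toAlgebra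
  have halgE : ∀ r : ↥(modularFunctionFieldFullC k N), algebraMap ↥(modularFunctionFieldFullC k N) E r = ι (base r) := fun r => rfl
  have hconst : ∀ c : k, algebraMap k ↥(modularFunctionFieldFullC k (N * ℓ)) c = algebraMap ↥(modularFunctionFieldFullC k N) ↥(modularFunctionFieldFullC k (N * ℓ)) (algebraMap k ↥(modularFunctionFieldFullC k N) c) := by
    intro c
    apply Subtype.ext
    rw [halg]
    rfl
  have hgen : ∀ (d : ℕ) (hd : d ∣ N),
      jF (k := k) (N * ℓ) d (hd.trans (Dvd.intro _ rfl)) = algebraMap ↥(modularFunctionFieldFullC k N) ↥(modularFunctionFieldFullC k (N * ℓ)) (jF N d hd) := by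
    intro d hd
    apply Subtype.ext
    rw [halg]
    rfl
  have hbase_const : ∀ c : k, base (algebraMap k ↥(modularFunctionFieldFullC k N) c) = HahnSeries.C c := by
    intro c
    show qExpand k (N * ℓ * (N * ℓ)) (algebraMap k (LaurentSeries k) c) = _
    rw [Kummer.algebraMap_laurent_eq_C, qExpand_C]
  have hbase_j : ∀ (d : ℕ) (hd : d ∣ N), base (jF N d hd) = jAt k (N * ℓ * (N * ℓ) * d) := by
    intro d hd
    have hd0 : d ≠ 0 := ne_zero_of_dvd_ne_zero (NeZero.ne N) hd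
    have : NeZero d := ⟨hd0⟩
    show qExpand k (N * ℓ * (N * ℓ)) (jAt k d) = _
    rw [jAt_of_neZero, jAt_of_neZero, qExpand_qExpand]
  -- the Tate embedding of an algebra homomorphism
  let T : (↥(modularFunctionFieldFullC k (N * ℓ)) →ₐ[↥(modularFunctionFieldFullC k N)] E) → TateEmb (N * ℓ) ι := fun σ =>
    { σ := σ.toRingHom
      map_const := fun c => by
        show σ (algebraMap k ↥(modularFunctionFieldFullC k (N * ℓ)) c) = ι (HahnSeries.C c)
        rw [hconst, σ.commutes, halgE, hbase_const]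
      map_j := by
        show σ (jF (N * ℓ) 1 (one_dvd _)) = ι (jAt k (N * ℓ * (N * ℓ)))
        rw [hgen 1 (one_dvd N), σ.commutes, halgE, hbase_j, mul_one] }
  let D : (↥(modularFunctionFieldFullC k (N * ℓ)) →ₐ[↥(modularFunctionFieldFullC k N)] E) → (↥(modularFunctionFieldFullC k (N * ℓ)) →+* LaurentSeries k) := fun σ => (T σ).descend hΦ
  have hD : ∀ σ θ, ι (D σ θ) = σ θ := fun σ θ => (T σ).map_descend hΦ θ
  have hDinj : Function.Injective D := by
    intro σ τ h
    apply AlgHom.ext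
    intro θ
    rw [← hD σ θ, ← hD τ θ, h]
  let T' : (↥(modularFunctionFieldFullC k (N * ℓ)) →ₐ[↥(modularFunctionFieldFullC k N)] E) → TateEmb (N * ℓ) (RingHom.id (LaurentSeries k)) := fun σ =>
    { σ := D σ
      map_const := fun c => ι.injective (by rw [hD]; exact (T σ).map_const c)
      map_j := ι.injective (by rw [hD]; exact (T σ).map_j) }
  have hrel : ∀ σ, IsRel (T' σ) := by
    intro σ d hd
    apply ι.injective
    show ι (D σ (jF (N * ℓ) d _)) = _
    rw [hD, hgen d hd, σ.commutes, halgE, hbase_j]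
  let v : (↥(modularFunctionFieldFullC k (N * ℓ)) →ₐ[↥(modularFunctionFieldFullC k N)] E) → kˣ × ℕ := fun σ => (T' σ).vtx hΦ ℓ
  have hvinj : Function.Injective v := by
    intro σ τ h
    have h1 : T' σ = T' τ := (hrel σ).eq_of_vtx_eq hΦ (hrel τ) hℓ hℓN h
    apply hDinj
    exact congrArg TateEmb.σ h1
  have hvmem : ∀ σ, v σ ∈ nbrs N ℓ ζ := fun σ => mem_nbrs_of_adj hζ (adj_vtx_prime hΦ hℓ)
  have himage : Finset.univ.image v = nbrs N ℓ ζ := by
    apply Finset.eq_of_subset_of_card_le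
    · intro w hw
      obtain ⟨σ, -, rfl⟩ := Finset.mem_image.mp hw
      exact hvmem σ
    · rw [Finset.card_image_of_injective _ hvinj, Finset.card_univ, AlgHom.card, hdeg]
      exact card_nbrs_le N ℓ ζ
  apply ι.injective
  have h1 : ι (qExpand k (N * ℓ * (N * ℓ))
      ((Algebra.norm ↥(modularFunctionFieldFullC k N) (betaC N ℓ f) : ↥(modularFunctionFieldFullC k N)) : LaurentSeries k)) =
      algebraMap ↥(modularFunctionFieldFullC k N) E (Algebra.norm ↥(modularFunctionFieldFullC k N) (betaC N ℓ f)) := rfl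
  rw [h1, Algebra.norm_eq_prod_embeddings ↥(modularFunctionFieldFullC k N) E (betaC N ℓ f)]
  have h2 : ∀ σ : ↥(modularFunctionFieldFullC k (N * ℓ)) →ₐ[↥(modularFunctionFieldFullC k N)] E, σ (betaC N ℓ f) = ι (substV (v σ) (f : LaurentSeries k)) := by
    intro σ
    rw [← hD]
    exact congrArg ι ((hrel σ).σ_betaC hΦ hℓ hℓN f)
  rw [Finset.prod_congr rfl (fun σ _ => h2 σ),
    ← Finset.prod_image (s := Finset.univ) (g := v)
      (f := fun w => ι (substV w (f : LaurentSeries k))) (fun a _ b _ h => hvinj h),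
    himage, prod_nbrs hℓ hζ, map_mul, map_prod]
  congr 1
  · rw [substV_mk, twist_one_unit]
  · refine Finset.prod_congr rfl (fun i _ => ?_)
    rw [substV_mk]

end Main

end Fermat.Agent.S37lib.ConjNorm
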