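/-
S37lib / ConjNorm / Inst  (helper4)

(C1), part 3: the norm formula for the Prelude's degeneracy maps over `Q̄`:
for `f ∈ FBar N`, `ℓ ∤ N` prime, `M = N ℓ`, the norm of `heckeBetaBar f` along `heckeAlphaBar` has
the expansion

  `N_α (β f) (u^(M*M)) = f(u^(ℓ M M)) · ∏_{i < ℓ} f(ζ^i u^(N N ℓ))`.
-/
import Mathlib
import Fermat.Agent.S37lib.ConjNorm.Norm
import Fermat.Agent.S37lib.HeckeInst.Basic
import Fermat.Agent.S18lib.Haupt.BarEq
import Fermat.Agent.S18lib.V.GaussU.LevelFin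
import Fermat.Agent.S18lib.Gink.Residue
import Fermat.Agent.S28lib.PhiP
import Fermat.Agent.S28lib.PsiStep

set_option autoImplicit false
set_option linter.unusedSectionVars false
set_option linter.style.haveILetI false

noncomputable section

namespace Fermat.Agent.S37lib.ConjNorm

open AlgebraicCurve ModularCurve Fermat.Agent.S28lib Fermat.Agent.S18lib Polynomial

/-! ### transport along equalities of intermediate fields -/

section Transport

variable {k : Type*} [Field k] [IsAlgClosed k] {N ℓ : ℕ} [NeZero N] [NeZero ℓ]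

/-- the norm formula for any pair of intermediate fields equal to the standard ones -/
theorem qExpand_norm_of_eq
    (hΦ : ∀ (p : ℕ) [NeZero p], p.Prime → p ∣ N * ℓ → ModPolyData k p)
    {F₁ F₂ : IntermediateField k (LaurentSeries k)}
    (h₁ : F₁ = modularFunctionFieldFullC k N) (h₂ : F₂ = modularFunctionFieldFullC k (N * ℓ))
    [Algebra F₁ F₂] [FiniteDimensional F₁ F₂] [Algebra.IsSeparable F₁ F₂]
    (halg : ∀ x : F₁, ((algebraMap F₁ F₂ x : F₂) : LaurentSeries k) = (x : LaurentSeries k))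
    (hdeg : Module.finrank F₁ F₂ = ℓ + 1) (hℓ : ℓ.Prime) (hℓN : ¬ ℓ ∣ N) {ζ : kˣ}
    (hζ : IsPrimitiveRoot ζ ℓ) (f : F₁) (g : F₂)
    (hg : (g : LaurentSeries k) = qExpand k ℓ (f : LaurentSeries k)) :
    qExpand k (N * ℓ * (N * ℓ)) ((Algebra.norm F₁ g : F₁) : LaurentSeries k) =
      qExpand k (ℓ * (N * ℓ * (N * ℓ))) (f : LaurentSeries k) *
        ∏ i ∈ Finset.range ℓ, qExpand k (N * N * ℓ) (twist (ζ ^ i) (f : LaurentSeries k)) := by
  subst h₁ h₂
  have hgb : g = betaC N ℓ f := Subtype.ext hg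
  rw [hgb]
  exact qExpand_norm_betaC hΦ halg hdeg hℓ hℓN hζ f

end Transport

/-! ### the instance over `Q̄` -/

local notation "Qb" => AlgebraicClosure ℚ

/-- the prime-level modular equations over `Q̄` -/
def modPolyDataQbar (p : ℕ) [Fact p.Prime] : ModPolyData Qb p :=
  modPolyData_of_ringHom p (Gink.intToQbar : integralClosure ℤ ℂ →+* Qb)
    (Nat.cast_ne_zero.mpr (Fact.out : p.Prime).ne_zero)

variable (N ℓ : ℕ) [NeZero N] [NeZero ℓ]

/-- `[FBar (N ℓ) : FBar N] = ℓ + 1` along `heckeAlphaBar` -/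
theorem finrank_alpha (hℓ : ℓ.Prime) (hℓN : ¬ ℓ ∣ N) :
    letI := algebraAlong (heckeAlphaBar Qb N ℓ)
    Module.finrank (FBar N) (FBar (N * ℓ)) = ℓ + 1 := by
  have h1 := V.dedekindPsi_mul_finrank_inclL (N := N) (N' := N * ℓ) (Dvd.intro _ rfl)
  rw [Chain.dedekindPsi_mul_prime_of_not_dvd (NeZero.ne N) hℓ hℓN] at h1
  have hpos : 0 < dedekindPsi N := Fermat.Agent.ProgramR.BarField.dedekindPsi_pos N
  exact Nat.eq_of_mul_eq_mul_left hpos h1

/-- **The norm formula for `T_ℓ` on functions** (over `Q̄`) -/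
theorem qExpand_norm_heckeBetaBar (hℓ : ℓ.Prime) (hℓN : ¬ ℓ ∣ N) {ζ : Qbˣ}
    (hζ : IsPrimitiveRoot ζ ℓ) (f : FBar N) :
    letI := algebraAlong (heckeAlphaBar Qb N ℓ)
    qExpand Qb (N * ℓ * (N * ℓ))
        ((Algebra.norm (FBar N) (heckeBetaBar Qb N ℓ f) : FBar N) : LaurentSeries Qb) =
      qExpand Qb (ℓ * (N * ℓ * (N * ℓ))) (f : LaurentSeries Qb) *
        ∏ i ∈ Finset.range ℓ, qExpand Qb (N * N * ℓ) (twist (ζ ^ i) (f : LaurentSeries Qb)) := by
  letI := algebraAlong (heckeAlphaBar Qb N ℓ)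
  haveI : FiniteDimensional (FBar N) (FBar (N * ℓ)) := HeckeInst.finite_alpha N ℓ
  haveI : Algebra.IsSeparable (FBar N) (FBar (N * ℓ)) := HeckeInst.isSeparable_alpha N ℓ
  have hΦ : ∀ (p : ℕ) [NeZero p], p.Prime → p ∣ N * ℓ → ModPolyData Qb p := fun p _ hp _ =>
    haveI : Fact p.Prime := ⟨hp⟩
    modPolyDataQbar p
  exact qExpand_norm_of_eq hΦ (Haupt.modularFunctionFieldBar_eq N)
    (Haupt.modularFunctionFieldBar_eq (N * ℓ)) (coe_heckeAlphaBar N ℓ) (finrank_alpha N ℓ hℓ hℓN)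
    hℓ hℓN hζ f (heckeBetaBar Qb N ℓ f) (coe_heckeBetaBar N ℓ f)

end Fermat.Agent.S37lib.ConjNorm
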