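/-
S37lib / ConjNorm / KroneckerPlace  (helper4)

The modular equation at level `N ℓ` over `Q̄` and its values at places: in `FBar (N ℓ)`, with
`x = β j = j(q^ℓ)` and `y = α j = j(q)`, `Φ_ℓ(x, y) = 0 = Φ_ℓ(y, x)`; hence at every place the
values `a = x(P)`, `b = y(P)` satisfy `Φ_ℓ(a, b) = 0 = Φ_ℓ(b, a)`, `x` and `y` have the same poles,
`a ∈ A ↔ b ∈ A`, and the reductions satisfy Kronecker's congruence.
-/
import Mathlib
import Fermat.Agent.S37lib.ConjNorm.KroneckerVal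
import Fermat.Agent.S37lib.ConjNorm.Inst
import Fermat.Agent.ProgramR.FunctionField.AlgClosed
import Fermat.Agent.ProgramR.FunctionField.PlaceDedekind

set_option autoImplicit false
set_option linter.unusedSectionVars false
set_option linter.style.haveILetI false

noncomputable section

namespace Fermat.Agent.S37lib.ConjNorm

open AlgebraicCurve ModularCurve Fermat.Agent.S28lib Fermat.Agent.S18lib Polynomial
open Fermat.Agent.ProgramR

/-! ### the modular equation in Laurent series -/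

section Laurent

variable {k : Type*} [Field k] {p : ℕ} [Fact p.Prime] [NeZero p]

theorem eval_map_evalJ_eq_biEval₂ (ι : Zb →+* k) (x y : LaurentSeries k) :
    (((phiZ p).map (mapRingHom ι)).map (evalJ k y)).eval x =
      biEval₂ ((HahnSeries.C : k →+* LaurentSeries k).comp ι) (phiZ p) x y := by
  rw [Polynomial.eval_map, Polynomial.eval₂_map, biEval₂]
  congr 1
  apply Polynomial.ringHom_ext
  · intro c
    simp [evalJ, Kummer.algebraMap_laurent_eq_C]
  · simp [evalJ]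

/-- `Φ_p(j(q^p), j(q)) = 0` -/
theorem biEval₂_qExpand_jqModC (ι : Zb →+* k) (hp : (p : k) ≠ 0) :
    biEval₂ ((HahnSeries.C : k →+* LaurentSeries k).comp ι) (phiZ p)
      (qExpand k p (jqModC k)) (jqModC k) = 0 := by
  have h := Gink.eval_jAt_map_evalJ (modPolyData_of_ringHom p ι hp) 1 one_ne_zero
  rw [one_mul, jAt_of_neZero, jAt_of_neZero, qExpand_one_apply] at h
  rw [← eval_map_evalJ_eq_biEval₂]
  exact h

/-- `Φ_p(j(q), j(q^p)) = 0` -/
theorem biEval₂_jqModC_qExpand (ι : Zb →+* k) (hp : (p : k) ≠ 0) :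
    biEval₂ ((HahnSeries.C : k →+* LaurentSeries k).comp ι) (phiZ p)
      (jqModC k) (qExpand k p (jqModC k)) = 0 := by
  have h := (modPolyData_of_ringHom p ι hp).factor
  rw [← eval_map_evalJ_eq_biEval₂]
  show (((modPolyData_of_ringHom p ι hp).Φ).map (evalJ k (qExpand k p (jqModC k)))).eval
    (jqModC k) = 0
  rw [h, Polynomial.eval_mul, Polynomial.eval_prod]
  have h0 : (0 : ℕ) ∈ Finset.range p := Finset.mem_range.mpr (Nat.pos_of_ne_zero (NeZero.ne p))
  rw [Finset.prod_eq_zero h0, mul_zero]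
  rw [pow_zero, twist_one_unit, Polynomial.eval_sub, Polynomial.eval_X, Polynomial.eval_C,
    sub_self]

end Laurent

/-! ### values at a place -/

section Place

variable {K F : Type*} [Field K] [Field F] [Algebra K F]

theorem mem_of_sub_algebraMap (v : Place K F) {x : F} {a : K}
    (hx : x = algebraMap K F a ∨ 0 < v.ord (x - algebraMap K F a)) :
    x ∈ v.toValuationSubring := by
  rcases hx with rfl | hx
  · exact v.algebraMap_mem' a
  · have h1 : x - algebraMap K F a ∈ v.toValuationSubring :=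
      (FF.mem_iff_ord_nonneg v _).mpr hx.le
    have h2 := v.toValuationSubring.add_mem _ _ h1 (v.algebraMap_mem' a)
    rwa [sub_add_cancel] at h2

/-- **evaluation of a relation at a place**: if `Φ(x, y) = 0` in `F` and `x`, `y` take the values
`a`, `b` at the place `v`, then `Φ(a, b) = 0`. -/
theorem biEval₂_eq_zero_of_place (v : Place K F) {S : Type*} [CommRing S] (ι : S →+* K)
    (Φ : S[X][X]) {x y : F} {a b : K}
    (hx : x = algebraMap K F a ∨ 0 < v.ord (x - algebraMap K F a))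
    (hy : y = algebraMap K F b ∨ 0 < v.ord (y - algebraMap K F b))
    (h : biEval₂ ((algebraMap K F).comp ι) Φ x y = 0) : biEval₂ ι Φ a b = 0 := by
  set O := v.toValuationSubring with hO
  have hxO : x ∈ O := mem_of_sub_algebraMap v hx
  have hyO : y ∈ O := mem_of_sub_algebraMap v hy
  set ιO : S →+* O := (algebraMap K O).comp ι with hιO
  have hsub : O.subtype.comp ιO = (algebraMap K F).comp ι := rfl
  have h1 : biEval₂ ιO Φ (⟨x, hxO⟩ : O) ⟨y, hyO⟩ = 0 := by
    apply Subtype.val_injective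
    have := map_biEval₂ O.subtype ιO Φ (⟨x, hxO⟩ : O) ⟨y, hyO⟩
    rw [hsub] at this
    exact this.trans h
  have h2 := map_biEval₂ (IsLocalRing.residue O) ιO Φ (⟨x, hxO⟩ : O) ⟨y, hyO⟩
  rw [h1, map_zero] at h2
  -- the residues are the constants
  have hres : ∀ {z : F} {c : K} (hz : z ∈ O),
      (z = algebraMap K F c ∨ 0 < v.ord (z - algebraMap K F c)) →
      IsLocalRing.residue O (⟨z, hz⟩ : O) = IsLocalRing.residue O (algebraMap K O c) := by
    intro z c hz hzc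
    rw [← sub_eq_zero, ← map_sub, IsLocalRing.residue_eq_zero_iff, FF.mem_maximalIdeal_iff]
    rcases hzc with h | h
    · left
      apply Subtype.ext
      show z - algebraMap K F c = 0
      rw [h, sub_self]
    · right
      exact h
  rw [hres hxO hx, hres hyO hy] at h2
  set g : K →+* IsLocalRing.ResidueField O := (IsLocalRing.residue O).comp (algebraMap K O) with hg
  have h3 := map_biEval₂ g ι Φ a b
  have h4 : g.comp ι = (IsLocalRing.residue O).comp ιO := rfl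
  rw [h4] at h3
  have h5 : g (biEval₂ ι Φ a b) = 0 := h3.trans h2.symm
  exact (map_eq_zero g).mp h5

/-- integrality at a place: if `Φ` is monic in `X`, `Φ(x, y) = 0` and `y` is regular at `v`, then
so is `x` -/
theorem mem_of_biEval₂_eq_zero (v : Place K F) {S : Type*} [CommRing S] (ι : S →+* K)
    {Φ : S[X][X]} (hΦ : Φ.Monic) {x y : F}
    (h : biEval₂ ((algebraMap K F).comp ι) Φ x y = 0) (hy : y ∈ v.toValuationSubring) :
    x ∈ v.toValuationSubring := by
  set O := v.toValuationSubring with hO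
  set ιO : S →+* O := (algebraMap K O).comp ι with hιO
  apply Gink.mem_of_isIntegral O
  refine ⟨Φ.map (Polynomial.eval₂RingHom ιO ⟨y, hy⟩), hΦ.map _, ?_⟩
  rw [Polynomial.eval₂_map]
  have h1 : (algebraMap O F).comp (Polynomial.eval₂RingHom ιO ⟨y, hy⟩) =
      Polynomial.eval₂RingHom ((algebraMap K F).comp ι) y :=
    comp_eval₂RingHom O.subtype ιO (⟨y, hy⟩ : O)
  rw [h1]
  exact h

end Place

/-! ### the modular equation at level `N ℓ` over `Q̄` -/

section Modular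

local notation "Qb" => AlgebraicClosure ℚ

variable (N ℓ : ℕ) [NeZero N] [Fact ℓ.Prime] [NeZero ℓ]

/-- `x = β j = j(q^ℓ)` at level `N ℓ` -/
def jBeta : FBar (N * ℓ) := heckeBetaBar Qb N ℓ (HeckeInst.jB N)

/-- `y = α j = j(q)` at level `N ℓ` -/
def jAlpha : FBar (N * ℓ) := heckeAlphaBar Qb N ℓ (HeckeInst.jB N)

theorem coe_jBeta :
    ((jBeta N ℓ : FBar (N * ℓ)) : LaurentSeries Qb) = qExpand Qb ℓ (jqModC Qb) := by
  rw [jBeta, coe_heckeBetaBar, HeckeInst.coe_jB]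

theorem coe_jAlpha : ((jAlpha N ℓ : FBar (N * ℓ)) : LaurentSeries Qb) = jqModC Qb := by
  rw [jAlpha, coe_heckeAlphaBar, HeckeInst.coe_jB]

theorem jAlpha_eq : jAlpha N ℓ = HeckeInst.jB (N * ℓ) := HeckeInst.heckeAlphaBar_jB N ℓ

/-- the coefficient homomorphism `Zb → Q̄ → FBar (N ℓ)` -/
def iotaF : Zb →+* FBar (N * ℓ) :=
  (algebraMap Qb (FBar (N * ℓ))).comp (Gink.intToQbar : Zb →+* Qb)

theorem val_comp_iotaF :
    (algebraMap (FBar (N * ℓ)) (LaurentSeries Qb)).comp (iotaF N ℓ) =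
      (HahnSeries.C : Qb →+* LaurentSeries Qb).comp (Gink.intToQbar : Zb →+* Qb) := by
  apply RingHom.ext
  intro c
  show algebraMap Qb (LaurentSeries Qb) (Gink.intToQbar c) = _
  rw [Kummer.algebraMap_laurent_eq_C]
  rfl

theorem natCast_ne_zero_Qbar : ((ℓ : ℕ) : Qb) ≠ 0 :=
  Nat.cast_ne_zero.mpr (NeZero.ne ℓ)

/-- `Φ_ℓ(β j, α j) = 0` in `FBar (N ℓ)` -/
theorem biEval₂_jBeta_jAlpha : biEval₂ (iotaF N ℓ) (phiZ ℓ) (jBeta N ℓ) (jAlpha N ℓ) = 0 := by
  apply (algebraMap (FBar (N * ℓ)) (LaurentSeries Qb)).injective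
  rw [map_biEval₂, val_comp_iotaF, map_zero]
  show biEval₂ _ (phiZ ℓ) ((jBeta N ℓ : FBar (N * ℓ)) : LaurentSeries Qb)
    ((jAlpha N ℓ : FBar (N * ℓ)) : LaurentSeries Qb) = 0
  rw [coe_jBeta, coe_jAlpha]
  exact biEval₂_qExpand_jqModC _ (natCast_ne_zero_Qbar ℓ)

/-- `Φ_ℓ(α j, β j) = 0` in `FBar (N ℓ)` -/
theorem biEval₂_jAlpha_jBeta : biEval₂ (iotaF N ℓ) (phiZ ℓ) (jAlpha N ℓ) (jBeta N ℓ) = 0 := by
  apply (algebraMap (FBar (N * ℓ)) (LaurentSeries Qb)).injective
  rw [map_biEval₂, val_comp_iotaF, map_zero]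
  show biEval₂ _ (phiZ ℓ) ((jAlpha N ℓ : FBar (N * ℓ)) : LaurentSeries Qb)
    ((jBeta N ℓ : FBar (N * ℓ)) : LaurentSeries Qb) = 0
  rw [coe_jBeta, coe_jAlpha]
  exact biEval₂_jqModC_qExpand _ (natCast_ne_zero_Qbar ℓ)

variable {N ℓ}

/-- `β j` and `α j` have the same poles -/
theorem jBeta_mem_iff (v : Place Qb (FBar (N * ℓ))) :
    jBeta N ℓ ∈ v.toValuationSubring ↔ jAlpha N ℓ ∈ v.toValuationSubring :=
  ⟨mem_of_biEval₂_eq_zero v _ (phiZ_monic ℓ) (biEval₂_jAlpha_jBeta N ℓ),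
    mem_of_biEval₂_eq_zero v _ (phiZ_monic ℓ) (biEval₂_jBeta_jAlpha N ℓ)⟩

theorem ord_jBeta_neg_iff (v : Place Qb (FBar (N * ℓ))) :
    v.ord (jBeta N ℓ) < 0 ↔ v.ord (jAlpha N ℓ) < 0 := by
  rw [← not_le, ← not_le, ← FF.mem_iff_ord_nonneg, ← FF.mem_iff_ord_nonneg, jBeta_mem_iff]

/-- the values of `β j`, `α j` at a place lie on the modular curve `Φ_ℓ = 0` (both ways) -/
theorem phiVal_of_place (v : Place Qb (FBar (N * ℓ))) {a b : Qb}
    (ha : 0 < v.ord (jBeta N ℓ - algebraMap Qb (FBar (N * ℓ)) a))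
    (hb : 0 < v.ord (jAlpha N ℓ - algebraMap Qb (FBar (N * ℓ)) b)) :
    phiVal ℓ a b = 0 ∧ phiVal ℓ b a = 0 :=
  ⟨biEval₂_eq_zero_of_place v _ (phiZ ℓ) (Or.inr ha) (Or.inr hb) (biEval₂_jBeta_jAlpha N ℓ),
    biEval₂_eq_zero_of_place v _ (phiZ ℓ) (Or.inr hb) (Or.inr ha) (biEval₂_jAlpha_jBeta N ℓ)⟩

/-- **Kronecker at a place of level `N ℓ`**: the values `a = (β j)(P)`, `b = (α j)(P)` are
simultaneously in `A`, and then `ā^ℓ = b̄` or `ā = b̄^ℓ`. -/
theorem kronecker_place (A : ValuationSubring Qb) [CharP (kRes A) ℓ]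
    (v : Place Qb (FBar (N * ℓ))) {a b : Qb}
    (ha : 0 < v.ord (jBeta N ℓ - algebraMap Qb (FBar (N * ℓ)) a))
    (hb : 0 < v.ord (jAlpha N ℓ - algebraMap Qb (FBar (N * ℓ)) b)) :
    (a ∈ A ↔ b ∈ A) ∧ ∀ (ha' : a ∈ A) (hb' : b ∈ A),
      IsLocalRing.residue A ⟨a, ha'⟩ ^ ℓ = IsLocalRing.residue A ⟨b, hb'⟩ ∨
        IsLocalRing.residue A ⟨a, ha'⟩ = IsLocalRing.residue A ⟨b, hb'⟩ ^ ℓ := by
  obtain ⟨h1, h2⟩ := phiVal_of_place v ha hb
  refine ⟨⟨fun h => mem_of_phiVal_eq_zero A ℓ h2 h, fun h => mem_of_phiVal_eq_zero A ℓ h1 h⟩, ?_⟩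
  intro ha' hb'
  exact kronecker_residue_or A (a := ⟨a, ha'⟩) (b := ⟨b, hb'⟩) h1

end Modular

end Fermat.Agent.S37lib.ConjNorm
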