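/-
S37lib / ConjNorm / Reduce  (helper4)

(C1), part 4: **reduction of the norm formula.**  For an integral modular function
`a ∈ V.IntRing N A` (`A` a valuation subring of `Q̄` over `ℓ ∤ N`), the norm `N_α (β f)`,
`f = elemL a`, is again integral, `= elemL b`, and its reduction is

  `toK b = (Fr⁻¹ f̄)^ℓ · Fr f̄`,   `f̄ = toK a`,

`Fr` the coefficientwise Frobenius of `k((q))`, `k` the residue field of `A`.
-/
import Mathlib
import Fermat.Agent.S37lib.ConjNorm.Inst
import Fermat.Agent.S37lib.ConjNorm.FrobSeries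
import Fermat.Agent.S18lib.V.Decomp
import Fermat.Agent.S18lib.Gink.Bricks

set_option autoImplicit false
set_option linter.unusedSectionVars false
set_option linter.style.haveILetI false

noncomputable section

namespace Fermat.Agent.S37lib.ConjNorm

open AlgebraicCurve ModularCurve Fermat.Agent.S28lib Fermat.Agent.S18lib Polynomial

/-! ### coefficientwise ring homomorphisms preserve `k(j(q^d) : d ∣ N)` -/

section Stable

variable {k : Type*} [Field k] (N : ℕ) [NeZero N]

theorem coeffMap_mem_fullC (τ : k →+* k) {x : LaurentSeries k}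
    (hx : x ∈ modularFunctionFieldFullC k N) : coeffMap τ x ∈ modularFunctionFieldFullC k N := by
  have hx' : x ∈ IntermediateField.adjoin k (divisorExpansionsC k N) := hx
  induction hx' using IntermediateField.adjoin_induction with
  | mem z hz =>
    obtain ⟨d, hne, hd, rfl⟩ := hz
    haveI := hne
    rw [coeffMap_qExpand, coeffMap_jqModC]
    exact jqModCd_mem_full k N hd
  | algebraMap c =>
    rw [Kummer.algebraMap_laurent_eq_C, HahnSeries.C_apply, coeffMap_single, ← HahnSeries.C_apply,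
      ← Kummer.algebraMap_laurent_eq_C]
    exact IntermediateField.algebraMap_mem _ _
  | add a b ha hb iha ihb =>
    rw [map_add]; exact add_mem (iha ha) (ihb hb)
  | inv a ha iha =>
    rw [map_inv₀]; exact inv_mem (iha ha)
  | mul a b ha hb iha ihb =>
    rw [map_mul]; exact mul_mem (iha ha) (ihb hb)

end Stable

/-! ### roots of unity in `A` -/

section Roots

local notation "Qb" => AlgebraicClosure ℚ

variable (A : ValuationSubring Qb) {ℓ : ℕ} [Fact ℓ.Prime]

/-- a primitive `ℓ`-th root of unity of `Q̄` is a unit of `A` -/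
theorem exists_unit_eq {ζ : Qbˣ} (hζ : IsPrimitiveRoot ζ ℓ) :
    ∃ ζA : Aˣ, Units.map (A.subtype : A →* Qb) ζA = ζ := by
  have hℓ : ℓ.Prime := Fact.out
  have hζ' : IsPrimitiveRoot (ζ : Qb) ℓ := IsPrimitiveRoot.coe_units_iff.mpr hζ
  have hmem : (ζ : Qb) ∈ A := Gink.mem_of_isIntegral_int A (hζ'.isIntegral hℓ.pos)
  have hpow : (⟨(ζ : Qb), hmem⟩ : A) ^ ℓ = 1 := by
    apply Subtype.ext
    show (ζ : Qb) ^ ℓ = 1
    exact hζ'.pow_eq_one
  have hu : IsUnit (⟨(ζ : Qb), hmem⟩ : A) := IsUnit.of_pow_eq_one hpow hℓ.ne_zero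
  refine ⟨hu.unit, Units.ext ?_⟩
  rfl

/-- the residue field has no nontrivial `ℓ`-th roots of unity -/
theorem eq_one_of_pow_eq_one (hA : A.LiesOverPrime ℓ) {ξ : (kRes A)ˣ} (hξ : ξ ^ ℓ = 1) :
    ξ = 1 := by
  haveI := Gink.charP_kRes A hA
  have h1 : ((ξ : kRes A) - 1) ^ ℓ = 0 := by
    rw [sub_pow_char, one_pow, ← Units.val_pow_eq_pow_val, hξ, Units.val_one, sub_self]
  have h2 : (ξ : kRes A) - 1 = 0 := pow_eq_zero_iff (Fact.out : ℓ.Prime).ne_zero |>.mp h1
  exact Units.ext (sub_eq_zero.mp h2)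

end Roots

/-! ### the reduction of the norm -/

section Main

local notation "Qb" => AlgebraicClosure ℚ

variable (N : ℕ) [NeZero N] (A : ValuationSubring Qb) {ℓ : ℕ} [Fact ℓ.Prime] [NeZero ℓ]
  [CharP (kRes A) ℓ]

/-- the coefficientwise Frobenius is inverted by the coefficientwise inverse Frobenius -/
theorem coeffMap_frobenius_symm (x : LaurentSeries (kRes A)) :
    coeffMap (frobenius (kRes A) ℓ)
      (coeffMap ((frobeniusEquiv (kRes A) ℓ).symm : kRes A →+* kRes A) x) = x := by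
  ext n
  rw [coeffMap_coeff, coeffMap_coeff]
  exact frobenius_apply_frobeniusEquiv_symm (kRes A) ℓ _

/-- **Reduction of the norm formula.** -/
theorem exists_norm_reduction (hA : A.LiesOverPrime ℓ) (hℓN : ¬ ℓ ∣ N) (a : V.IntRing N A) :
    letI := algebraAlong (heckeAlphaBar Qb N ℓ)
    ∃ b : V.IntRing N A,
      V.elemL b = Algebra.norm (FBar N) (heckeBetaBar Qb N ℓ (V.elemL a)) ∧
      V.toK A b.1 =
        (coeffMap ((frobeniusEquiv (kRes A) ℓ).symm : kRes A →+* kRes A) (V.toK A a.1)) ^ ℓ *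
          coeffMap (frobenius (kRes A) ℓ) (V.toK A a.1) := by
  classical
  letI := algebraAlong (heckeAlphaBar Qb N ℓ)
  have hℓ : ℓ.Prime := Fact.out
  -- roots of unity
  have hζ : IsPrimitiveRoot (modPolyDataQbar ℓ).ζ ℓ := (modPolyDataQbar ℓ).prim
  obtain ⟨ζA, hζA⟩ := exists_unit_eq A hζ
  have hζApow : ζA ^ ℓ = 1 := by
    apply Units.map_injective (f := (A.subtype : A →* Qb)) Subtype.val_injective
    rw [map_pow, hζA, map_one]
    exact hζ.pow_eq_one
  have hζk1 : Units.map (IsLocalRing.residue A : A →* kRes A) ζA = 1 :=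
    eq_one_of_pow_eq_one A hA (by rw [← map_pow, hζApow, map_one])
  -- the norm
  have hnorm := qExpand_norm_heckeBetaBar N ℓ hℓ hℓN hζ (V.elemL a)
  set ν : FBar N := Algebra.norm (FBar N) (heckeBetaBar Qb N ℓ (V.elemL a)) with hν
  -- the integral series
  set b' : LaurentSeries A := qExpand A (ℓ * (N * ℓ * (N * ℓ))) a.1 *
    ∏ i ∈ Finset.range ℓ, qExpand A (N * N * ℓ) (twist (ζA ^ i) a.1) with hb'
  have hLb' : V.toL A b' = qExpand Qb (N * ℓ * (N * ℓ)) (ν : LaurentSeries Qb) := by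
    rw [hnorm, hb', map_mul, map_prod]
    congr 1
    · exact coeffMap_qExpand _ _ _
    · refine Finset.prod_congr rfl (fun i _ => ?_)
      show coeffMap A.subtype (qExpand A (N * N * ℓ) (twist (ζA ^ i) a.1)) = _
      rw [coeffMap_qExpand, coeffMap_twist, map_pow, hζA]
      rfl
  have hrange : b' ∈ Set.range (qExpand A (N * ℓ * (N * ℓ))) := by
    rw [mem_range_qExpand_iff]
    intro n hn
    have h1 : (V.toL A b').coeff n = 0 := by
      rw [hLb']; exact qExpand_coeff_of_not_dvd _ _ hn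
    rw [V.toL_coeff] at h1
    exact_mod_cast h1
  obtain ⟨b, hb⟩ := hrange
  have hLb : V.toL A b = (ν : LaurentSeries Qb) := by
    apply qExpand_injective (R := Qb) (N * ℓ * (N * ℓ))
    rw [← hLb', ← hb]
    exact (coeffMap_qExpand _ _ _).symm
  -- the reduction
  set abar : LaurentSeries (kRes A) := V.toK A a.1 with habar
  have hKb' : V.toK A b' = qExpand (kRes A) (ℓ * (N * ℓ * (N * ℓ))) abar *
      (qExpand (kRes A) (N * N * ℓ) abar) ^ ℓ := by
    have hpow : (qExpand (kRes A) (N * N * ℓ) abar) ^ ℓ =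
        ∏ _i ∈ Finset.range ℓ, qExpand (kRes A) (N * N * ℓ) abar := by
      rw [Finset.prod_const, Finset.card_range]
    rw [hpow, hb', map_mul, map_prod]
    congr 1
    · exact coeffMap_qExpand _ _ _
    · refine Finset.prod_congr rfl (fun i _ => ?_)
      show coeffMap (IsLocalRing.residue A) (qExpand A (N * N * ℓ) (twist (ζA ^ i) a.1)) = _
      rw [coeffMap_qExpand, coeffMap_twist, map_pow, hζk1, one_pow, twist_one_unit]
      rfl
  have h1 : (qExpand (kRes A) (N * N * ℓ) abar) ^ ℓ =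
      qExpand (kRes A) (N * ℓ * (N * ℓ)) (coeffMap (frobenius (kRes A) ℓ) abar) := by
    rw [← map_pow, pow_char_eq_qExpand ℓ abar, qExpand_qExpand]
    exact qExpand_congr (by ring) _
  have h2 : qExpand (kRes A) (ℓ * (N * ℓ * (N * ℓ))) abar =
      qExpand (kRes A) (N * ℓ * (N * ℓ))
        ((coeffMap ((frobeniusEquiv (kRes A) ℓ).symm : kRes A →+* kRes A) abar) ^ ℓ) := by
    rw [pow_char_eq_qExpand ℓ, coeffMap_frobenius_symm, qExpand_qExpand]
    exact qExpand_congr (mul_comm _ _) _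
  have hKb : V.toK A b =
      (coeffMap ((frobeniusEquiv (kRes A) ℓ).symm : kRes A →+* kRes A) abar) ^ ℓ *
        coeffMap (frobenius (kRes A) ℓ) abar := by
    apply qExpand_injective (R := kRes A) (N * ℓ * (N * ℓ))
    rw [map_mul, ← h1, ← h2, ← hKb', ← hb]
    exact (coeffMap_qExpand _ _ _).symm
  have hmem : b ∈ V.IntRing N A := by
    refine ⟨?_, ?_⟩
    · rw [hLb]; exact ν.2
    · rw [hKb]
      exact mul_mem (pow_mem (coeffMap_mem_fullC N _ a.2.2) ℓ) (coeffMap_mem_fullC N _ a.2.2)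
  exact ⟨⟨b, hmem⟩, Subtype.ext hLb, hKb⟩

/-- the inverse-free form of the reduction -/
theorem exists_norm_reduction' (hA : A.LiesOverPrime ℓ) (hℓN : ¬ ℓ ∣ N) (a : V.IntRing N A) :
    letI := algebraAlong (heckeAlphaBar Qb N ℓ)
    ∃ b : V.IntRing N A,
      V.elemL b = Algebra.norm (FBar N) (heckeBetaBar Qb N ℓ (V.elemL a)) ∧
      coeffMap (frobenius (kRes A) ℓ) (V.toK A b.1) =
        (V.toK A a.1) ^ ℓ *
          coeffMap (frobenius (kRes A) ℓ) (coeffMap (frobenius (kRes A) ℓ) (V.toK A a.1)) := by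
  obtain ⟨b, hb1, hb2⟩ := exists_norm_reduction N A hA hℓN a
  refine ⟨b, hb1, ?_⟩
  rw [hb2, map_mul, map_pow, coeffMap_frobenius_symm]

end Main

end Fermat.Agent.S37lib.ConjNorm
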