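/-
S37lib / ConjNorm / Kronecker  (helper4)

The Kronecker congruence for the modular polynomial `Φ_ℓ` of S28lib (`phiZ ℓ`, over the algebraic
integers): over a field `k` of characteristic `ℓ`,

  `Φ_ℓ(X, Y) = (X^ℓ - Y) (X - Y^ℓ)`,

and its consequences for values in a valuation subring `A` of `Q̄` over `ℓ`.
-/
import Mathlib
import Fermat.Agent.S28lib.PhiP
import Fermat.Agent.S28lib.Kummer
import Fermat.Agent.S37lib.ConjNorm.FrobSeries

set_option autoImplicit false
set_option linter.unusedSectionVars false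
set_option linter.style.haveILetI false

noncomputable section

namespace Fermat.Agent.S37lib.ConjNorm

open ModularCurve Fermat.Agent.S28lib Polynomial

section CharL

variable {k : Type*} [Field k] (ℓ : ℕ) [hℓ : Fact ℓ.Prime] [NeZero ℓ] [CharP k ℓ]

/-- in characteristic `ℓ` there are no nontrivial `ℓ`-th roots of unity -/
theorem units_eq_one_of_pow_char {ξ : kˣ} (hξ : ξ ^ ℓ = 1) : ξ = 1 := by
  have h1 : ((ξ : k) - 1) ^ ℓ = 0 := by
    rw [sub_pow_char, one_pow, ← Units.val_pow_eq_pow_val, hξ, Units.val_one, sub_self]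
  have h2 : (ξ : k) - 1 = 0 := pow_eq_zero_iff hℓ.out.ne_zero |>.mp h1
  exact Units.ext (sub_eq_zero.mp h2)

/-- `j̄(u)^ℓ = j̄(u^ℓ)` -/
theorem jqModC_pow_char : (jqModC k) ^ ℓ = qExpand k ℓ (jqModC k) := by
  rw [pow_char_eq_qExpand ℓ, coeffMap_jqModC]

/-- `j̄(u^ℓ)^ℓ = j̄(u^(ℓ²))` -/
theorem qExpand_jqModC_pow_char :
    (qExpand k ℓ (jqModC k)) ^ ℓ = qExpand k ℓ (qExpand k ℓ (jqModC k)) := by
  rw [pow_char_eq_qExpand ℓ, coeffMap_qExpand, coeffMap_jqModC]

theorem evalJ_qExpand_jqModC_injective :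
    Function.Injective (evalJ k (qExpand k ℓ (jqModC k))) := by
  intro P Q h
  rw [← qExpand_evalJ_eq, ← qExpand_evalJ_eq] at h
  exact aeval_jqModC_injective (qExpand_injective (R := k) ℓ h)

/-- **Kronecker's congruence**: `Φ_ℓ(X, Y) = (X^ℓ - Y)(X - Y^ℓ)` in characteristic `ℓ`. -/
theorem kronecker (ι : Zb →+* k) :
    (phiZ ℓ).map (mapRingHom ι) =
      (X ^ ℓ - C (X : k[X])) * (X - C ((X : k[X]) ^ ℓ)) := by
  haveI : CharP (LaurentSeries k) ℓ := charP_laurentSeries ℓ
  have h := congrArg (Polynomial.map (coeffMap ι)) (phiZ_factor ℓ)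
  rw [modLHS_map, modRHS_map] at h
  have hζ : Units.map (ι : Zb →* k) (zetaZ ℓ) = 1 :=
    units_eq_one_of_pow_char ℓ (by rw [← map_pow, zetaZ_pow, map_one])
  rw [hζ, modLHS, modRHS] at h
  apply Polynomial.map_injective _ (evalJ_qExpand_jqModC_injective (k := k) ℓ)
  rw [h]
  simp only [one_pow, twist_one_unit, Finset.prod_const, Finset.card_range, Polynomial.map_mul,
    Polynomial.map_sub, Polynomial.map_pow, Polynomial.map_X, Polynomial.map_C, evalJ_X]
  rw [sub_pow_char, ← C_pow, jqModC_pow_char ℓ, map_pow, evalJ_X, qExpand_jqModC_pow_char ℓ]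
  ring

end CharL

end Fermat.Agent.S37lib.ConjNorm
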