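/-
S37lib / ConjNorm / KroneckerVal  (helper4)

Values of the modular polynomial `Φ_ℓ = phiZ ℓ` (over the algebraic integers `Zb`): bivariate
evaluation along a ring homomorphism, integrality of the values in a valuation subring `A` of `Q̄`,
and the Kronecker congruence for the reductions: if `Φ_ℓ(a, b) = 0` with `a, b ∈ A` then
`ā = b̄^ℓ` or `ā^ℓ = b̄` in the residue field.
-/
import Mathlib
import Fermat.Agent.S37lib.ConjNorm.Kronecker
import Fermat.Agent.S18lib.Gink.Bricks

set_option autoImplicit false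
set_option linter.unusedSectionVars false
set_option linter.style.haveILetI false

noncomputable section

namespace Fermat.Agent.S37lib.ConjNorm

open ModularCurve Fermat.Agent.S28lib Fermat.Agent.S18lib Polynomial

/-! ### bivariate evaluation -/

section BiEval

variable {S S' R R' : Type*} [CommRing S] [CommRing S'] [CommRing R] [CommRing R']

/-- evaluation of `Φ ∈ S[Y][X]` at `X ↦ x`, `Y ↦ y` along `ι : S →+* R` -/
def biEval₂ (ι : S →+* R) (Φ : S[X][X]) (x y : R) : R :=
  Φ.eval₂ (Polynomial.eval₂RingHom ι y) x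

theorem comp_eval₂RingHom (g : R →+* R') (ι : S →+* R) (y : R) :
    g.comp (Polynomial.eval₂RingHom ι y) = Polynomial.eval₂RingHom (g.comp ι) (g y) := by
  apply Polynomial.ringHom_ext
  · intro c
    simp
  · simp

theorem map_biEval₂ (g : R →+* R') (ι : S →+* R) (Φ : S[X][X]) (x y : R) :
    g (biEval₂ ι Φ x y) = biEval₂ (g.comp ι) Φ (g x) (g y) := by
  rw [biEval₂, biEval₂, Polynomial.hom_eval₂, comp_eval₂RingHom]

theorem eval₂RingHom_comp_mapRingHom (f : S →+* S') (ι' : S' →+* R) (y : R) :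
    (Polynomial.eval₂RingHom ι' y).comp (Polynomial.mapRingHom f) =
      Polynomial.eval₂RingHom (ι'.comp f) y := by
  apply Polynomial.ringHom_ext
  · intro c
    simp
  · simp

theorem biEval₂_map (f : S →+* S') (ι' : S' →+* R) (Φ : S[X][X]) (x y : R) :
    biEval₂ ι' (Φ.map (Polynomial.mapRingHom f)) x y = biEval₂ (ι'.comp f) Φ x y := by
  rw [biEval₂, biEval₂, Polynomial.eval₂_map, eval₂RingHom_comp_mapRingHom]

/-- the evaluation of `(X^n - Y) (X - Y^n)` -/
theorem biEval₂_kronecker (n : ℕ) (x y : R) :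
    biEval₂ (RingHom.id R) ((X ^ n - C (X : R[X])) * (X - C ((X : R[X]) ^ n))) x y =
      (x ^ n - y) * (x - y ^ n) := by
  simp [biEval₂, Polynomial.eval₂_mul, Polynomial.eval₂_sub, Polynomial.eval₂_pow]

end BiEval

/-! ### values in a valuation subring of `Q̄` -/

section Values

local notation "Qb" => AlgebraicClosure ℚ

variable (A : ValuationSubring Qb) (ℓ : ℕ) [Fact ℓ.Prime] [NeZero ℓ]

/-- `Φ_ℓ(a, b)` for `a, b ∈ Q̄` (`X ↦ a`, `Y ↦ b`) -/
def phiVal (a b : Qb) : Qb :=
  biEval₂ (Gink.intToQbar : Zb →+* Qb) (phiZ ℓ) a b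

theorem subtype_comp_intToA :
    A.subtype.comp (Gink.intToA A) = (Gink.intToQbar : Zb →+* Qb) := rfl

/-- `Φ_ℓ` is monic in `X`: if `Φ_ℓ(a, b) = 0` and `b ∈ A` then `a ∈ A` -/
theorem mem_of_phiVal_eq_zero {a b : Qb} (h : phiVal ℓ a b = 0) (hb : b ∈ A) : a ∈ A := by
  apply Gink.mem_of_isIntegral A
  refine ⟨(phiZ ℓ).map (Polynomial.eval₂RingHom (Gink.intToA A) ⟨b, hb⟩),
    (phiZ_monic ℓ).map _, ?_⟩
  rw [Polynomial.eval₂_map]
  have h1 : (algebraMap A Qb).comp (Polynomial.eval₂RingHom (Gink.intToA A) ⟨b, hb⟩) =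
      Polynomial.eval₂RingHom (Gink.intToQbar : Zb →+* Qb) b := by
    have := comp_eval₂RingHom A.subtype (Gink.intToA A) (⟨b, hb⟩ : A)
    rw [subtype_comp_intToA] at this
    exact this
  rw [h1]
  exact h

variable {ℓ}

/-- **Kronecker congruence for values**: if `Φ_ℓ(a, b) = 0` with `a, b ∈ A` then in the residue
field `(ā^ℓ - b̄) (ā - b̄^ℓ) = 0`. -/
theorem kronecker_residue [CharP (kRes A) ℓ] {a b : A} (h : phiVal ℓ (a : Qb) (b : Qb) = 0) :
    (IsLocalRing.residue A a ^ ℓ - IsLocalRing.residue A b) *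
      (IsLocalRing.residue A a - IsLocalRing.residue A b ^ ℓ) = 0 := by
  have h1 : biEval₂ (Gink.intToA A) (phiZ ℓ) a b = 0 := by
    apply Subtype.val_injective
    have := map_biEval₂ A.subtype (Gink.intToA A) (phiZ ℓ) a b
    rw [subtype_comp_intToA] at this
    exact this.trans h
  have h2 := map_biEval₂ (IsLocalRing.residue A) (Gink.intToA A) (phiZ ℓ) a b
  rw [h1, map_zero] at h2
  have h3 : (IsLocalRing.residue A).comp (Gink.intToA A) = Gink.iotaA A := rfl
  rw [h3] at h2
  have h4 := biEval₂_map (Gink.iotaA A) (RingHom.id (kRes A)) (phiZ ℓ)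
    (IsLocalRing.residue A a) (IsLocalRing.residue A b)
  rw [RingHom.id_comp, ← h2, kronecker ℓ (Gink.iotaA A), biEval₂_kronecker] at h4
  exact h4

theorem kronecker_residue_or [CharP (kRes A) ℓ] {a b : A}
    (h : phiVal ℓ (a : Qb) (b : Qb) = 0) :
    IsLocalRing.residue A a ^ ℓ = IsLocalRing.residue A b ∨
      IsLocalRing.residue A a = IsLocalRing.residue A b ^ ℓ := by
  rcases mul_eq_zero.mp (kronecker_residue A h) with h1 | h1
  · exact Or.inl (sub_eq_zero.mp h1)
  · exact Or.inr (sub_eq_zero.mp h1)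

end Values

end Fermat.Agent.S37lib.ConjNorm
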